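/-
P-ES / KL-N-GLUE (helper33), algebra part: maximal ideals of `A[X]` containing a uniformiser of
the discrete valuation ring `A`.  Mathlib only.
-/
import Mathlib

set_option autoImplicit false

noncomputable section

namespace Fermat.Agent.H33.KLGlue

open Polynomial

variable {A : Type} [CommRing A] [IsDomain A] [IsDiscreteValuationRing A]

/-- The kernel of the reduction `A[X] → k[X]` is generated by the uniformiser. -/
lemma exists_C_mul_of_map_eq_zero {ϖ : A} (hϖ : Irreducible ϖ) {f : A[X]}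
    (hf : f.map (IsLocalRing.residue A) = 0) : ∃ p : A[X], f = C ϖ * p := by
  have h : C ϖ ∣ f := by
    rw [C_dvd_iff_dvd_coeff]
    intro i
    have h1 : IsLocalRing.residue A (f.coeff i) = 0 := by
      have := congrArg (fun g => g.coeff i) hf
      simpa using this
    have h2 : f.coeff i ∈ IsLocalRing.maximalIdeal A := (IsLocalRing.residue_eq_zero_iff _).1 h1
    rw [hϖ.maximalIdeal_eq, Ideal.mem_span_singleton] at h2
    exact h2
  exact h

/-- A proper ideal of `A[X]` containing the uniformiser `ϖ` is contained in a maximal ideal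
`(ϖ, g)` with `g` monic and irreducible modulo `ϖ`. -/
theorem exists_monic_of_ne_top {ϖ : A} (hϖ : Irreducible ϖ) (I : Ideal A[X]) (hI : I ≠ ⊤)
    (hϖI : C ϖ ∈ I) :
    ∃ g : A[X], g.Monic ∧ Irreducible (g.map (IsLocalRing.residue A)) ∧
      ∀ s ∈ I, ∃ p q : A[X], s = C ϖ * p + g * q := by
  have hsurj : Function.Surjective (mapRingHom (IsLocalRing.residue A)) :=
    map_surjective _ IsLocalRing.residue_surjective
  have hJ : I.map (mapRingHom (IsLocalRing.residue A)) ≠ ⊤ := by
    intro hJ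
    have h1 : (1 : (IsLocalRing.ResidueField A)[X]) ∈
        I.map (mapRingHom (IsLocalRing.residue A)) := by
      rw [hJ]; trivial
    rw [Ideal.mem_map_iff_of_surjective _ hsurj] at h1
    obtain ⟨s, hs, hs1⟩ := h1
    have h2 : (1 - s).map (IsLocalRing.residue A) = 0 := by
      have hs1' : s.map (IsLocalRing.residue A) = 1 := hs1
      rw [Polynomial.map_sub, Polynomial.map_one, hs1', sub_self]
    obtain ⟨p, hp⟩ := exists_C_mul_of_map_eq_zero hϖ h2
    apply hI
    rw [Ideal.eq_top_iff_one]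
    have e : (1 : A[X]) = s + C ϖ * p := by rw [← hp]; ring
    rw [e]
    exact I.add_mem hs (I.mul_mem_right _ hϖI)
  obtain ⟨M, hM, hJM⟩ := Ideal.exists_le_maximal _ hJ
  have hMbot : M ≠ ⊥ :=
    Ring.ne_bot_of_isMaximal_of_not_isField hM (Polynomial.not_isField _)
  have := hM.isPrime
  have hprime := Submodule.IsPrincipal.prime_generator_of_isPrime M hMbot
  have hg0 : Submodule.IsPrincipal.generator M ≠ 0 := hprime.ne_zero
  have hlc : (Submodule.IsPrincipal.generator M).leadingCoeff ≠ 0 :=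
    leadingCoeff_ne_zero.2 hg0
  have hunit : IsUnit (C (Submodule.IsPrincipal.generator M).leadingCoeff⁻¹) :=
    Polynomial.isUnit_C.2 (IsUnit.mk0 _ (inv_ne_zero hlc))
  have hmonic : (Submodule.IsPrincipal.generator M *
      C (Submodule.IsPrincipal.generator M).leadingCoeff⁻¹).Monic :=
    monic_mul_leadingCoeff_inv hg0
  have hirr : Irreducible (Submodule.IsPrincipal.generator M *
      C (Submodule.IsPrincipal.generator M).leadingCoeff⁻¹) :=
    (irreducible_mul_isUnit hunit).2 hprime.irreducible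
  have hmem : ∀ f ∈ M, (Submodule.IsPrincipal.generator M *
      C (Submodule.IsPrincipal.generator M).leadingCoeff⁻¹) ∣ f := by
    intro f hf
    have h1 : Submodule.IsPrincipal.generator M ∣ f :=
      (Submodule.IsPrincipal.mem_iff_generator_dvd M).1 hf
    exact (hunit.mul_right_dvd).2 h1
  obtain ⟨g, hg, -, hgm⟩ := lifts_and_natDegree_eq_and_monic
    (mem_lifts_of_surjective IsLocalRing.residue_surjective _) hmonic
  refine ⟨g, hgm, by rw [hg]; exact hirr, ?_⟩
  intro s hs
  have h1 : mapRingHom (IsLocalRing.residue A) s ∈ M := hJM (Ideal.mem_map_of_mem _ hs)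
  obtain ⟨h', hh'⟩ := hmem _ h1
  obtain ⟨q, hq⟩ := hsurj h'
  have h2 : (s - g * q).map (IsLocalRing.residue A) = 0 := by
    have e1 : s.map (IsLocalRing.residue A) = _ := hh'
    have e2 : q.map (IsLocalRing.residue A) = h' := hq
    rw [Polynomial.map_sub, Polynomial.map_mul, hg, e1, e2, sub_self]
  obtain ⟨p, hp⟩ := exists_C_mul_of_map_eq_zero hϖ h2
  exact ⟨p, q, by rw [← hp]; ring⟩

omit [IsDomain A] [IsDiscreteValuationRing A] in
/-- An ideal of `A[X]` containing a power of `X` and an element with unit constant coefficient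
is the unit ideal. -/
theorem eq_top_of_pow_mem (I : Ideal A[X]) (k : ℕ) (hk : X ^ k ∈ I) (s : A[X]) (hs : s ∈ I)
    (hu : IsUnit (s.coeff 0)) : I = ⊤ := by
  obtain ⟨u, hu'⟩ := hu
  have hcop : IsCoprime s (X : A[X]) := by
    refine ⟨C (↑u⁻¹ : A), -(C (↑u⁻¹ : A) * s.divX), ?_⟩
    have e : s = s.divX * X + C (s.coeff 0) := (divX_mul_X_add s).symm
    have e2 : C (↑u⁻¹ : A) * C (s.coeff 0) = 1 := by
      rw [← C_mul, ← hu', Units.inv_mul, C_1]
    calc C (↑u⁻¹ : A) * s + -(C (↑u⁻¹ : A) * s.divX) * X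
        = C (↑u⁻¹ : A) * (s - s.divX * X) := by ring
      _ = C (↑u⁻¹ : A) * C (s.coeff 0) := by
          congr 1
          nth_rewrite 1 [e]
          ring
      _ = 1 := e2
  obtain ⟨a, b, hab⟩ := hcop.pow_right (n := k)
  rw [Ideal.eq_top_iff_one, ← hab]
  exact I.add_mem (I.mul_mem_left _ hs) (I.mul_mem_left _ hk)

/-- `s ∉ (ϖ, X)` means that the constant coefficient of `s` is a unit. -/
theorem isUnit_coeff_zero_of_outside {ϖ : A} (hϖ : Irreducible ϖ) (s : A[X])
    (hs : ¬ ∃ p q : A[X], s = C ϖ * p + X * q) : IsUnit (s.coeff 0) := by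
  by_contra hnu
  apply hs
  have h1 : s.coeff 0 ∈ IsLocalRing.maximalIdeal A := (IsLocalRing.mem_maximalIdeal _).2 hnu
  rw [hϖ.maximalIdeal_eq, Ideal.mem_span_singleton] at h1
  obtain ⟨c, hc⟩ := h1
  refine ⟨C c, s.divX, ?_⟩
  have e : s = s.divX * X + C (s.coeff 0) := (divX_mul_X_add s).symm
  rw [← C_mul, ← hc]
  nth_rewrite 1 [e]
  ring

end Fermat.Agent.H33.KLGlue

end
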