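/-
P-ES / KL-N-GLUE (helper33): local-global principle `NormalityAt ⇒ Normality` and the chart at
infinity `NormalityInf`.  Mathlib + `Fermat.Agent.H22.ES.KLSetting` only.
-/
import Fermat.Agent.H22.ES.KLSetting
import Fermat.Agent.H33.KL.MaxIdeal

set_option autoImplicit false

noncomputable section

namespace Fermat.Agent.H33.KLGlue

open Polynomial
open Fermat.Agent.H22.KL
open Fermat.Agent.H67.KLConn (PiDvd)

section Basic

variable {A : Type} [CommRing A] {E : Type} [Field E] [Algebra A E]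

lemma aeval_mem_chartRing (x : E) (r : A[X]) : aeval x r ∈ chartRing A E x :=
  Polynomial.aeval_mem_adjoin_singleton A x

lemma chartRing_le_chartClosure (x : E) {z : E} (hz : z ∈ chartRing A E x) :
    z ∈ chartClosure A E x := by
  have h : IsIntegral (chartRing A E x) z := by
    have := isIntegral_algebraMap (R := chartRing A E x) (A := E) (x := ⟨z, hz⟩)
    exact this
  exact h

lemma aeval_mem_chartClosure (x : E) (r : A[X]) : aeval x r ∈ chartClosure A E x :=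
  chartRing_le_chartClosure x (aeval_mem_chartRing x r)

/-- The ideal of all `s ∈ A[X]` such that `s(x₁) y` is congruent modulo `ϖ C` to an element of
`B(x₁)`. -/
def glueIdeal (ϖ : A) (x₁ : E) (Cset : Set E)
    (hsub : ∀ z ∈ chartClosure A E x₁, z ∈ Cset)
    (hadd : ∀ a ∈ Cset, ∀ b ∈ Cset, a + b ∈ Cset)
    (hmul : ∀ a ∈ Cset, ∀ b ∈ Cset, a * b ∈ Cset) (y : E) : Ideal A[X] where
  carrier := {s | ∃ b ∈ chartClosure A E x₁, PiDvdSet A E ϖ Cset (aeval x₁ s * y - b)}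
  add_mem' := by
    rintro s s' ⟨b, hb, c, hc, hbc⟩ ⟨b', hb', c', hc', hbc'⟩
    refine ⟨b + b', (chartClosure A E x₁).add_mem hb hb', c + c', hadd c hc c' hc', ?_⟩
    rw [map_add, mul_add, ← hbc, ← hbc']
    ring
  zero_mem' := by
    refine ⟨0, (chartClosure A E x₁).zero_mem, 0,
      hsub 0 (chartClosure A E x₁).zero_mem, ?_⟩
    simp
  smul_mem' := by
    rintro r s ⟨b, hb, c, hc, hbc⟩
    refine ⟨aeval x₁ r * b, (chartClosure A E x₁).mul_mem (aeval_mem_chartClosure x₁ r) hb,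
      aeval x₁ r * c, hmul _ (hsub _ (aeval_mem_chartClosure x₁ r)) _ hc, ?_⟩
    rw [smul_eq_mul, map_mul]
    calc aeval x₁ r * aeval x₁ s * y - aeval x₁ r * b
        = aeval x₁ r * (aeval x₁ s * y - b) := by ring
      _ = algebraMap A E ϖ * (aeval x₁ r * c) := by rw [hbc]; ring

lemma mem_glueIdeal {ϖ : A} {x₁ : E} {Cset : Set E}
    {hsub : ∀ z ∈ chartClosure A E x₁, z ∈ Cset}
    {hadd : ∀ a ∈ Cset, ∀ b ∈ Cset, a + b ∈ Cset}
    {hmul : ∀ a ∈ Cset, ∀ b ∈ Cset, a * b ∈ Cset} {y : E} {s : A[X]} :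
    s ∈ glueIdeal ϖ x₁ Cset hsub hadd hmul y ↔
      ∃ b ∈ chartClosure A E x₁, PiDvdSet A E ϖ Cset (aeval x₁ s * y - b) := Iff.rfl

lemma C_mem_glueIdeal {ϖ : A} {x₁ : E} {Cset : Set E}
    {hsub : ∀ z ∈ chartClosure A E x₁, z ∈ Cset}
    {hadd : ∀ a ∈ Cset, ∀ b ∈ Cset, a + b ∈ Cset}
    {hmul : ∀ a ∈ Cset, ∀ b ∈ Cset, a * b ∈ Cset} {y : E} (hy : y ∈ Cset) :
    C ϖ ∈ glueIdeal ϖ x₁ Cset hsub hadd hmul y := by
  refine ⟨0, (chartClosure A E x₁).zero_mem, y, hy, ?_⟩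
  rw [aeval_C, sub_zero]

lemma one_mem_glueIdeal {ϖ : A} {x₁ : E} {Cset : Set E}
    {hsub : ∀ z ∈ chartClosure A E x₁, z ∈ Cset}
    {hadd : ∀ a ∈ Cset, ∀ b ∈ Cset, a + b ∈ Cset}
    {hmul : ∀ a ∈ Cset, ∀ b ∈ Cset, a * b ∈ Cset} {y : E}
    (h : glueIdeal ϖ x₁ Cset hsub hadd hmul y = ⊤) :
    ∃ b ∈ chartClosure A E x₁, PiDvdSet A E ϖ Cset (y - b) := by
  have h1 : (1 : A[X]) ∈ glueIdeal ϖ x₁ Cset hsub hadd hmul y := by
    rw [h]; trivial
  obtain ⟨b, hb, hbc⟩ := h1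
  refine ⟨b, hb, ?_⟩
  rw [map_one, one_mul] at hbc
  exact hbc

end Basic

/-- **KL-N-GLUE (a)**: local-global principle. -/
theorem normality_of_normalityAt (hN : NormalityAtStatement) (hG : GaussClosureStatement) :
    NormalityStatement := by
  intro A _ _ _ E _ _ _ hinj ϖ hϖ x hx hGB hBr y hy hidem
  obtain ⟨hsub, hring, -⟩ := hG A E hinj ϖ hϖ x hx
  have hadd : ∀ a ∈ gaussClosure A E ϖ x, ∀ b ∈ gaussClosure A E ϖ x,
      a + b ∈ gaussClosure A E ϖ x := fun a ha b hb => (hring a ha b hb).1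
  have hmul : ∀ a ∈ gaussClosure A E ϖ x, ∀ b ∈ gaussClosure A E ϖ x,
      a * b ∈ gaussClosure A E ϖ x := fun a ha b hb => (hring a ha b hb).2.1
  apply one_mem_glueIdeal (hsub := hsub) (hadd := hadd) (hmul := hmul)
  by_contra hI
  obtain ⟨g, hgm, hgirr, hg⟩ := exists_monic_of_ne_top hϖ _ hI
    (C_mem_glueIdeal (hsub := hsub) (hadd := hadd) (hmul := hmul) hy)
  obtain ⟨s, hs, b, hb, hbc⟩ := hN A E hinj ϖ hϖ x hx hGB g hgm hgirr (hBr g hgm hgirr) y hy hidem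
  exact hs (hg s ⟨b, hb, hbc⟩)

section Inf

variable {A : Type} [CommRing A] {E : Type} [Field E] [Algebra A E]

lemma transcendental_inv {x : E} (hx : Transcendental A x) : Transcendental A x⁻¹ :=
  fun h => hx (IsAlgebraic.inv_iff.1 h)

lemma ne_zero_of_transcendental [Nontrivial A] {x : E} (hx : Transcendental A x) : x ≠ 0 := by
  rintro rfl
  exact hx isAlgebraic_zero

/-- `a(x) x⁻ᵐ ∈ A[x⁻¹]` if `deg a ≤ m`. -/
lemma aeval_mul_inv_pow_mem {x : E} (hx0 : x ≠ 0) (a : A[X]) (m : ℕ) (ha : a.natDegree ≤ m) :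
    aeval x a * x⁻¹ ^ m ∈ chartRing A E x⁻¹ := by
  let _inst : Invertible x⁻¹ := invertibleOfNonzero (inv_ne_zero hx0)
  have hinv : ⅟(x⁻¹) = x := by
    rw [invOf_eq_inv, inv_inv]
  have hdeg : (reflect m a).natDegree ≤ m := by
    refine natDegree_reflect_le.trans ?_
    exact max_le le_rfl ha
  have h := eval₂_reflect_mul_pow (algebraMap A E) x⁻¹ m (reflect m a) hdeg
  rw [hinv, reflect_reflect] at h
  have e : aeval x a * x⁻¹ ^ m = aeval x⁻¹ (reflect m a) := by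
    rw [aeval_def, aeval_def]
    exact h
  rw [e]
  exact aeval_mem_chartRing _ _

/-- If `b` is integral over `A[x]`, then `x⁻ᵏ b` is integral over `A[x⁻¹]` for some `k`. -/
lemma exists_inv_pow_mul_mem {x : E} (hx0 : x ≠ 0) {b : E} (hb : b ∈ chartClosure A E x) :
    ∃ k : ℕ, x⁻¹ ^ k * b ∈ chartClosure A E x⁻¹ := by
  have hb' : IsIntegral (chartRing A E x) b := hb
  obtain ⟨P, hPm, hP⟩ := hb'
  have hPEm : (P.map (algebraMap (chartRing A E x) E)).Monic := hPm.map _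
  have hPE0 : eval b (P.map (algebraMap (chartRing A E x) E)) = 0 := by
    rw [eval_map]; exact hP
  have hcoef : ∀ i, ∃ a : A[X], aeval x a = (P.map (algebraMap (chartRing A E x) E)).coeff i := by
    intro i
    rw [coeff_map]
    have h1 : ((P.coeff i : chartRing A E x) : E) ∈ Algebra.adjoin A {x} := (P.coeff i).2
    rw [Algebra.adjoin_singleton_eq_range_aeval] at h1
    obtain ⟨a, ha⟩ := h1
    exact ⟨a, ha⟩
  choose a ha using hcoef
  refine ⟨(Finset.range ((P.map (algebraMap (chartRing A E x) E)).natDegree + 1)).sup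
    (fun i => (a i).natDegree), ?_⟩
  set PE : E[X] := P.map (algebraMap (chartRing A E x) E) with hPE
  set n := PE.natDegree with hn
  set k := (Finset.range (n + 1)).sup (fun i => (a i).natDegree) with hk
  have hQm : (scaleRoots PE (x⁻¹ ^ k)).Monic := (monic_scaleRoots_iff _).2 hPEm
  have hQ0 : eval (x⁻¹ ^ k * b) (scaleRoots PE (x⁻¹ ^ k)) = 0 := by
    rw [scaleRoots_eval_mul, hPE0, mul_zero]
  have hQc : ∀ i, (scaleRoots PE (x⁻¹ ^ k)).coeff i ∈
      Set.range (algebraMap (chartRing A E x⁻¹) E) := by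
    intro i
    rw [coeff_scaleRoots]
    by_cases hi : i < n
    · have h1 : (a i).natDegree ≤ k * (n - i) := by
        have h0 : (a i).natDegree ≤ k :=
          Finset.le_sup (f := fun i => (a i).natDegree) (Finset.mem_range.2 (by omega))
        calc (a i).natDegree ≤ k := h0
          _ = k * 1 := (mul_one k).symm
          _ ≤ k * (n - i) := Nat.mul_le_mul_left k (by omega)
      have h2 := aeval_mul_inv_pow_mem hx0 (a i) (k * (n - i)) h1
      rw [ha i, pow_mul] at h2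
      exact ⟨⟨_, h2⟩, rfl⟩
    · by_cases hi' : i = n
      · rw [hi', Nat.sub_self, pow_zero, mul_one]
        have h3 : PE.coeff n = 1 := hPEm
        rw [h3]
        exact ⟨1, by simp⟩
      · have h3 : PE.coeff i = 0 := coeff_eq_zero_of_natDegree_lt (by omega)
        rw [h3, zero_mul]
        exact ⟨0, by simp⟩
  have hlift : scaleRoots PE (x⁻¹ ^ k) ∈ lifts (algebraMap (chartRing A E x⁻¹) E) :=
    (lifts_iff_coeff_lifts _).2 hQc
  obtain ⟨q, hq, -, hqm⟩ := lifts_and_natDegree_eq_and_monic hlift hQm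
  have hint : IsIntegral (chartRing A E x⁻¹) (x⁻¹ ^ k * b) :=
    ⟨q, hqm, by rw [← eval_map, hq]; exact hQ0⟩
  exact hint

end Inf

/-- **KL-N-GLUE (b)**: the chart at infinity. -/
theorem normalityInf_of_normalityAt (hN : NormalityAtStatement) (hG : GaussClosureStatement)
    (hI : GoodBasisInvStatement) : NormalityInfStatement := by
  intro A _ _ _ E _ _ _ hinj ϖ hϖ x hx hGB hBr y hy hidem hyb
  obtain ⟨b, hb, hyb⟩ := hyb
  have hx' : Transcendental A x⁻¹ := transcendental_inv hx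
  have hx0 : x ≠ 0 := ne_zero_of_transcendental hx
  obtain ⟨-, hring, hCeq⟩ := hG A E hinj ϖ hϖ x hx
  obtain ⟨hsub', -, -⟩ := hG A E hinj ϖ hϖ x⁻¹ hx'
  rw [hCeq] at hsub'
  have hadd : ∀ a ∈ gaussClosure A E ϖ x, ∀ b ∈ gaussClosure A E ϖ x,
      a + b ∈ gaussClosure A E ϖ x := fun a ha b hb => (hring a ha b hb).1
  have hmul : ∀ a ∈ gaussClosure A E ϖ x, ∀ b ∈ gaussClosure A E ϖ x,
      a * b ∈ gaussClosure A E ϖ x := fun a ha b hb => (hring a ha b hb).2.1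
  apply one_mem_glueIdeal (x₁ := x⁻¹) (hsub := hsub') (hadd := hadd) (hmul := hmul)
  have hGB' := hI A E hinj ϖ hϖ x hx hGB
  have hXirr : Irreducible ((X : A[X]).map (IsLocalRing.residue A)) := by
    rw [Polynomial.map_X]
    exact irreducible_X
  have hy' : y ∈ gaussClosure A E ϖ x⁻¹ := by rw [hCeq]; exact hy
  have hidem' : PiDvdSet A E ϖ (gaussClosure A E ϖ x⁻¹) (y * y - y) := by
    rw [hCeq]; exact hidem
  obtain ⟨s, hs, b', hb', hbc'⟩ :=
    hN A E hinj ϖ hϖ x⁻¹ hx' hGB' X monic_X hXirr hBr y hy' hidem'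
  rw [hCeq] at hbc'
  have hu : IsUnit (s.coeff 0) := isUnit_coeff_zero_of_outside hϖ s hs
  obtain ⟨k, hk⟩ := exists_inv_pow_mul_mem hx0 hb
  obtain ⟨c, hc, hcy⟩ := hyb
  have hxk : x⁻¹ ^ k ∈ gaussClosure A E ϖ x := by
    have h1 : x⁻¹ ^ k ∈ chartClosure A E x⁻¹ := by
      have h2 := aeval_mem_chartClosure (A := A) x⁻¹ (X ^ k)
      rwa [map_pow, aeval_X] at h2
    exact hsub' _ h1
  refine eq_top_of_pow_mem _ k ?_ s ⟨b', hb', hbc'⟩ hu
  refine ⟨x⁻¹ ^ k * b, hk, x⁻¹ ^ k * c, hmul _ hxk _ hc, ?_⟩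
  rw [map_pow, aeval_X]
  calc x⁻¹ ^ k * y - x⁻¹ ^ k * b = x⁻¹ ^ k * (y - b) := by ring
    _ = algebraMap A E ϖ * (x⁻¹ ^ k * c) := by rw [hcy]; ring

end Fermat.Agent.H33.KLGlue

end
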